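import Mathlib
import Fermat.Prelude.Def_EllipticCurve_FrobeniusTrace

set_option autoImplicit false
set_option linter.unusedSectionVars false

namespace Fermat.Agent.S54

open Polynomial

section Frac

variable {L : Type*} [Field L] [CharZero L]

/-- Integer polynomials evaluated at an element of a subring stay in the subring. -/
lemma aeval_int_mem (V : Subring L) {x : L} (hx : x ∈ V) (p : ℤ[X]) : aeval x p ∈ V := by
  rw [aeval_eq_sum_range]
  exact Subring.sum_mem _ fun i _ => zsmul_mem (pow_mem hx i) _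

/-- Dedekind's trick: the "top parts" of an integer polynomial killing `x` give integral
elements. -/
lemma mul_aeval_divX_mem (V : ValuationSubring L) {x : L} {p : ℤ[X]} (hp : aeval x p = 0)
    (k : ℕ) : x * aeval x (divX^[k] p) ∈ V := by
  rcases V.mem_or_inv_mem x with hx | hx
  · exact V.mul_mem _ _ hx (aeval_int_mem V.toSubring hx _)
  · by_cases hx0 : x = 0
    · simp [hx0, V.zero_mem]
    induction k with
    | zero => simp [hp, V.zero_mem]
    | succ k ih =>
      have h1 : aeval x (divX^[k] p) =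
          aeval x (divX^[k+1] p) * x + ((divX^[k] p).coeff 0 : ℤ) := by
        conv_lhs => rw [← divX_mul_X_add (divX^[k] p)]
        simp [Function.iterate_succ_apply']
      have h2 : x * aeval x (divX^[k+1] p) =
          x⁻¹ * (x * aeval x (divX^[k] p)) - ((divX^[k] p).coeff 0 : ℤ) := by
        rw [h1]; field_simp; ring
      rw [h2]
      exact V.toSubring.sub_mem (V.mul_mem _ _ hx ih) (intCast_mem V.toSubring _)

lemma isIntegral_of_forall_mem {z : L} (h : ∀ V : ValuationSubring L, z ∈ V) :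
    IsIntegral ℤ z := by
  by_contra hz
  have : IsIntegrallyClosedIn (integralClosure ℤ L).toSubring L :=
    inferInstanceAs (IsIntegrallyClosedIn (integralClosure ℤ L) L)
  obtain ⟨V, -, hV⟩ := Subring.exists_le_valuationSubring_of_isIntegrallyClosedIn
    (R := (integralClosure ℤ L).toSubring) (x := z) hz
  exact hV (h V)

lemma isIntegral_mul_aeval_divX {x : L} {p : ℤ[X]} (hp : aeval x p = 0) (k : ℕ) :
    IsIntegral ℤ (x * aeval x (divX^[k] p)) :=
  isIntegral_of_forall_mem fun V => mul_aeval_divX_mem V hp k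

lemma coeff_iterate_divX (p : ℤ[X]) (k i : ℕ) : (divX^[k] p).coeff i = p.coeff (i + k) := by
  induction k generalizing i with
  | zero => simp
  | succ k ih =>
    rw [Function.iterate_succ_apply', coeff_divX, ih]
    congr 1; ring

lemma mem_of_isIntegral_int (A : ValuationSubring L) {z : L} (hz : IsIntegral ℤ z) : z ∈ A := by
  have h1 : IsIntegral A z := hz.tower_top
  obtain ⟨y, hy⟩ := IsIntegrallyClosedIn.algebraMap_eq_of_integral h1
  rw [← hy]; exact y.2

/-- Every element of a valuation subring over `ℓ`, algebraic over `ℤ`, is a fraction of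
algebraic integers with denominator a unit of the valuation subring. -/
lemma exists_integral_fraction (A : ValuationSubring L) {ℓ : ℕ} (hℓ : ℓ.Prime)
    (hA : (ℓ : L) ∈ A.nonunits) {x : L} (hx : x ∈ A) (halg : IsAlgebraic ℤ x) :
    ∃ b c : L, IsIntegral ℤ b ∧ IsIntegral ℤ c ∧ b ∉ A.nonunits ∧ x * b = c := by
  classical
  obtain ⟨p₀, hp₀, hp₀x⟩ := halg
  set p := p₀.primPart with hpdef
  have hpx : aeval x p = 0 := by
    have := (Polynomial.aeval_primPart_eq_zero hp₀ hp₀x : aeval x p₀.primPart = 0)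
    exact this
  have hprim : p.IsPrimitive := p₀.isPrimitive_primPart
  -- some coefficient is not divisible by `ℓ`
  have hex : ∃ i, ¬ (ℓ : ℤ) ∣ p.coeff i := by
    by_contra hcon
    push Not at hcon
    have h1 : C (ℓ : ℤ) ∣ p := (C_dvd_iff_dvd_coeff _ _).mpr hcon
    have h2 := hprim _ h1
    have h3 := Int.isUnit_iff_natAbs_eq.mp h2
    simp at h3
    exact hℓ.one_lt.ne' h3
  obtain ⟨i₀, hi₀⟩ := hex
  have hi₀le : i₀ ≤ p.natDegree := by
    by_contra hcon
    exact hi₀ (by rw [coeff_eq_zero_of_natDegree_lt (not_le.mp hcon)]; exact dvd_zero _)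
  set j := Nat.findGreatest (fun i => ¬ (ℓ : ℤ) ∣ p.coeff i) p.natDegree with hj
  have hjspec : ¬ (ℓ : ℤ) ∣ p.coeff j :=
    Nat.findGreatest_spec (P := fun i => ¬ (ℓ : ℤ) ∣ p.coeff i) hi₀le hi₀
  have hjgt : ∀ k, j < k → (ℓ : ℤ) ∣ p.coeff k := by
    intro k hk
    by_cases hkn : k ≤ p.natDegree
    · have := Nat.findGreatest_is_greatest (P := fun i => ¬ (ℓ : ℤ) ∣ p.coeff i) hk hkn
      simpa using this
    · rw [coeff_eq_zero_of_natDegree_lt (not_le.mp hkn)]; exact dvd_zero _
  have hb : aeval x (divX^[j] p) = x * aeval x (divX^[j+1] p) + (p.coeff j : ℤ) := by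
    conv_lhs => rw [← divX_mul_X_add (divX^[j] p)]
    simp [Function.iterate_succ_apply', coeff_iterate_divX, mul_comm]
  refine ⟨aeval x (divX^[j] p), x * aeval x (divX^[j] p), ?_, isIntegral_mul_aeval_divX hpx j,
    ?_, rfl⟩
  · rw [hb]
    exact (isIntegral_mul_aeval_divX hpx (j+1)).add isIntegral_algebraMap
  · -- unit-ness
    intro hnon
    obtain ⟨r, hr⟩ : C (ℓ : ℤ) ∣ divX^[j+1] p := by
      rw [C_dvd_iff_dvd_coeff]
      intro i
      rw [coeff_iterate_divX]
      exact hjgt _ (by omega)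
    have h1 : x * aeval x (divX^[j+1] p) ∈ A.nonunits := by
      rw [hr]
      have h2 : x * aeval x (C (ℓ : ℤ) * r) = (ℓ : L) * (x * aeval x r) := by
        rw [map_mul, aeval_C, eq_intCast, Int.cast_natCast]; ring
      have h3 : x * aeval x r ∈ A := A.mul_mem _ _ hx (aeval_int_mem A.toSubring hx r)
      rw [h2, ValuationSubring.mem_nonunits_iff, map_mul]
      calc A.valuation (ℓ : L) * A.valuation (x * aeval x r)
          ≤ A.valuation (ℓ : L) * 1 :=
            mul_le_mul_right ((A.valuation_le_one_iff _).mpr h3) _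
        _ < 1 := by rw [mul_one]; exact A.mem_nonunits_iff.mp hA
    have h4 : ((p.coeff j : ℤ) : L) ∈ A.nonunits := by
      have : ((p.coeff j : ℤ) : L) = aeval x (divX^[j] p) - x * aeval x (divX^[j+1] p) := by
        rw [hb]; ring
      rw [this]
      exact sub_mem hnon h1
    obtain ⟨u, v, huv⟩ : IsCoprime (ℓ : ℤ) (p.coeff j) :=
      (Nat.prime_iff_prime_int.mp hℓ).coprime_iff_not_dvd.mpr hjspec
    have h5 : (1 : L) ∈ A.nonunits := by
      have : (1 : L) = u • (ℓ : L) + v • ((p.coeff j : ℤ) : L) := by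
        have := congrArg (Int.cast : ℤ → L) huv
        push_cast at this
        simp only [zsmul_eq_mul]
        exact this.symm
      rw [this]
      exact add_mem (zsmul_mem hA u) (zsmul_mem h4 v)
    rw [ValuationSubring.mem_nonunits_iff, map_one] at h5
    exact lt_irrefl _ h5

end Frac

section Main

open scoped Pointwise

local notation "Qb" => AlgebraicClosure ℚ
local notation "GalQ" => (AlgebraicClosure ℚ ≃ₐ[ℚ] AlgebraicClosure ℚ)

instance instIsAlgClosureRatBar : IsAlgClosure ℚ (AlgebraicClosure ℚ) := by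
  have h : (DivisionRing.toRatAlgebra : Algebra ℚ (AlgebraicClosure ℚ)) =
    AlgebraicClosure.instAlgebra ℚ := Subsingleton.elim _ _
  rw [h]; infer_instance

/-- The ring of all algebraic integers, as a subring of `ℚ̄`. -/
noncomputable abbrev Zbar : Subring Qb := (integralClosure ℤ Qb).toSubring

instance instInvZbar : IsInvariantSubring GalQ Zbar :=
  ⟨fun σ _ hx => map_isIntegral_int σ hx⟩

lemma coe_smul_Zbar (σ : GalQ) (b : Zbar) : ((σ • b : Zbar) : Qb) = σ (b : Qb) := rfl

instance instIsInvariantZbar : Algebra.IsInvariant ℤ Zbar GalQ := by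
  refine ⟨fun b hb => ?_⟩
  have h1 : (b : Qb) ∈ Set.range (algebraMap ℚ Qb) := by
    rw [InfiniteGalois.mem_range_algebraMap_iff_fixed]
    intro σ
    exact congrArg Subtype.val (hb σ)
  obtain ⟨q, hq⟩ := h1
  have h2 : IsIntegral ℤ q := by
    have : IsIntegral ℤ (algebraMap ℚ Qb q) := by rw [hq]; exact b.2
    exact (isIntegral_algebraMap_iff (algebraMap ℚ Qb).injective).mp this
  obtain ⟨n, hn⟩ := IsIntegrallyClosed.isIntegral_iff.mp h2
  refine ⟨n, Subtype.ext ?_⟩
  rw [← hq, ← hn]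
  simp

lemma exists_valuationSubring_liesOver (ℓ : ℕ) (hℓ : ℓ.Prime) :
    ∃ A : ValuationSubring Qb, (ℓ : Qb) ∈ A.nonunits := by
  have hne : Ideal.span {(ℓ : Zbar)} ≠ ⊤ := by
    intro htop
    rw [Ideal.span_singleton_eq_top] at htop
    obtain ⟨u, hu⟩ := htop
    have h1 : (ℓ : Zbar) * ((u⁻¹ : Zbarˣ) : Zbar) = 1 := by rw [← hu]; exact u.mul_inv
    have h2 : (ℓ : Qb) * (((u⁻¹ : Zbarˣ) : Zbar) : Qb) = 1 := by
      have := congrArg (Subtype.val) h1
      simpa using this
    have hℓ0 : (ℓ : Qb) ≠ 0 := by exact_mod_cast hℓ.ne_zero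
    have h3 : IsIntegral ℤ ((ℓ : Qb)⁻¹) := by
      have : (((u⁻¹ : Zbarˣ) : Zbar) : Qb) = (ℓ : Qb)⁻¹ := by
        field_simp; linear_combination h2
      rw [← this]; exact ((u⁻¹ : Zbarˣ) : Zbar).2
    have h4 : IsIntegral ℤ ((ℓ : ℚ)⁻¹) := by
      have : algebraMap ℚ Qb ((ℓ : ℚ)⁻¹) = (ℓ : Qb)⁻¹ := by simp
      rw [← this] at h3
      exact (isIntegral_algebraMap_iff (algebraMap ℚ Qb).injective).mp h3
    obtain ⟨m, hm⟩ := IsIntegrallyClosed.isIntegral_iff.mp h4
    rw [eq_intCast] at hm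
    have hpQ : (ℓ : ℚ) ≠ 0 := by exact_mod_cast hℓ.ne_zero
    have hmul : ((ℓ * m : ℤ) : ℚ) = ((1 : ℤ) : ℚ) := by
      push_cast; rw [hm]; field_simp
    have hdvd : (ℓ : ℤ) ∣ 1 := ⟨m, (Int.cast_injective hmul).symm⟩
    have hple : (ℓ : ℤ) ≤ 1 := Int.le_of_dvd one_pos hdvd
    have := hℓ.two_le; omega
  obtain ⟨A, -, hA⟩ := Ideal.image_subset_nonunits_valuationSubring _ hne
  exact ⟨A, hA ⟨(ℓ : Zbar), Ideal.subset_span rfl, by simp⟩⟩

theorem exists_frobenius (ℓ : ℕ) (hℓ : ℓ.Prime) :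
    ∃ (A : ValuationSubring (AlgebraicClosure ℚ))
      (σ : AlgebraicClosure ℚ ≃ₐ[ℚ] AlgebraicClosure ℚ),
      A.LiesOverPrime ℓ ∧ A.IsFrobeniusAt σ ℓ := by
  obtain ⟨A, hA⟩ := exists_valuationSubring_liesOver ℓ hℓ
  have hle : Zbar ≤ A.toSubring := fun z hz => mem_of_isIntegral_int A hz
  let ι : Zbar →+* A := Subring.inclusion hle
  let Q : Ideal Zbar := (IsLocalRing.maximalIdeal A).comap ι
  have hQprime : Q.IsPrime := Ideal.comap_isPrime _ _
  let _ : TopologicalSpace Zbar := ⊥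
  have : DiscreteTopology Zbar := ⟨rfl⟩
  have : ContinuousSMul GalQ Zbar := by
    rw [continuousSMul_iff_stabilizer_isOpen]
    intro x
    have : (MulAction.stabilizer GalQ x : Set GalQ) = (MulAction.stabilizer GalQ (x : Qb) : Set GalQ) := by
      ext σ
      simp only [SetLike.mem_coe, MulAction.mem_stabilizer_iff, Subtype.ext_iff]
      rfl
    rw [this]
    exact stabilizer_isOpen_of_isIntegral (K := ℚ) (x : Qb)
  -- membership in `Q`
  have hQmem : ∀ b : Zbar, b ∈ Q ↔ (b : Qb) ∈ A.nonunits := by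
    intro b
    rw [Ideal.mem_comap, ← ValuationSubring.coe_mem_nonunits_iff]
    rfl
  have hℓQ : (ℓ : Zbar) ∈ Q := by
    rw [hQmem]; simpa using hA
  -- characteristic `ℓ`
  have hchar : CharP (Zbar ⧸ Q) ℓ := by
    have h0 : ((ℓ : ℕ) : Zbar ⧸ Q) = 0 := by
      have := Ideal.Quotient.eq_zero_iff_mem.mpr hℓQ
      simpa using this
    have : Nontrivial (Zbar ⧸ Q) := Ideal.Quotient.nontrivial_iff.mpr hQprime.ne_top
    have h1 := CharP.ringChar_of_prime_eq_zero hℓ h0
    exact h1 ▸ ringChar.charP _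
  have hfact : Fact ℓ.Prime := ⟨hℓ⟩
  have hdom : IsDomain (Zbar ⧸ Q) := Ideal.Quotient.isDomain Q
  -- the Frobenius automorphism of the residue ring
  have hbij : Function.Bijective (frobenius (Zbar ⧸ Q) ℓ) := by
    refine ⟨frobenius_inj _ _, fun y => ?_⟩
    obtain ⟨b, rfl⟩ := Ideal.Quotient.mk_surjective y
    obtain ⟨z, hz⟩ := IsAlgClosed.exists_pow_nat_eq (b : Qb) hℓ.pos
    have hzint : IsIntegral ℤ z := by
      refine IsIntegral.of_pow hℓ.pos ?_
      rw [hz]; exact b.2
    refine ⟨Ideal.Quotient.mk Q ⟨z, hzint⟩, ?_⟩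
    rw [frobenius_def, ← map_pow]
    congr 1
    exact Subtype.ext hz
  let P : Ideal ℤ := Q.under ℤ
  let l : (Zbar ⧸ Q) ≃ₐ[ℤ ⧸ P] (Zbar ⧸ Q) :=
    { RingEquiv.ofBijective (frobenius (Zbar ⧸ Q) ℓ) hbij with
      commutes' := by
        intro r
        obtain ⟨n, rfl⟩ := Ideal.Quotient.mk_surjective r
        have h1 : algebraMap (ℤ ⧸ P) (Zbar ⧸ Q) (Ideal.Quotient.mk P n) = ((n : ℤ) : Zbar ⧸ Q) := by
          have : (Ideal.Quotient.mk P n) = ((n : ℤ) : ℤ ⧸ P) := by simp
          rw [this, map_intCast]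
        show frobenius (Zbar ⧸ Q) ℓ _ = _
        rw [h1, map_intCast] }
  obtain ⟨σ, hσ⟩ := Ideal.Quotient.stabilizerHom_surjective_of_profinite (G := GalQ) P Q l
  have hσfrob : ∀ b : Zbar, (σ.1 • b) - b ^ ℓ ∈ Q := by
    intro b
    have h1 := DFunLike.congr_fun hσ (Ideal.Quotient.mk Q b)
    rw [Ideal.Quotient.stabilizerHom_apply] at h1
    have h2 : l (Ideal.Quotient.mk Q b) = (Ideal.Quotient.mk Q b) ^ ℓ := rfl
    rw [h2, ← map_pow, Ideal.Quotient.eq] at h1
    exact h1
  have halg : ∀ x : Qb, IsAlgebraic ℤ x := fun x =>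
    (IsFractionRing.isAlgebraic_iff ℤ ℚ Qb).mpr (Algebra.IsAlgebraic.isAlgebraic x)
  -- the stabiliser of `Q` preserves `A`
  have hstab : ∀ τ : GalQ, τ • Q = Q → ∀ x ∈ A, τ x ∈ A := by
    intro τ hτ x hx
    obtain ⟨b, c, hb, hc, hbA, hxb⟩ := exists_integral_fraction A hℓ hA hx (halg x)
    have h1 : τ x * τ b = τ c := by rw [← map_mul, hxb]
    have h2 : τ b ∉ A.nonunits := by
      intro h
      have h3 : (τ • (⟨b, hb⟩ : Zbar)) ∈ Q := (hQmem _).mpr h
      rw [← hτ] at h3
      have h4 := (Ideal.smul_mem_pointwise_smul_iff).mp h3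
      exact hbA ((hQmem _).mp h4)
    have h5 : τ c ∈ A := mem_of_isIntegral_int A (map_isIntegral_int τ hc)
    rw [ValuationSubring.mem_nonunits_iff, not_lt] at h2
    rw [← ValuationSubring.valuation_le_one_iff] at h5 ⊢
    calc A.valuation (τ x) ≤ A.valuation (τ x) * A.valuation (τ b) := le_mul_of_one_le_right' h2
      _ = A.valuation (τ c) := by rw [← map_mul, h1]
      _ ≤ 1 := h5
  have hσQ : σ.1 • Q = Q := σ.2
  have hσQ' : σ.1⁻¹ • Q = Q := inv_smul_eq_iff.mpr hσQ.symm
  have hdec : σ.1 ∈ A.decompositionSubgroup ℚ := by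
    rw [MulAction.mem_stabilizer_iff]
    ext x
    rw [ValuationSubring.mem_pointwise_smul_iff_inv_smul_mem]
    constructor
    · intro h
      have := hstab σ.1 hσQ _ h
      simpa using this
    · intro h
      exact hstab σ.1⁻¹ hσQ' _ h
  refine ⟨A, σ.1, hA, hdec, fun y => ?_⟩
  obtain ⟨a, rfl⟩ := IsLocalRing.residue_surjective y
  obtain ⟨b, c, hb, hc, hbA, hxb⟩ := exists_integral_fraction A hℓ hA a.2 (halg a)
  set s : A.decompositionSubgroup ℚ := ⟨σ.1, hdec⟩ with hs
  let b' : A := ⟨b, mem_of_isIntegral_int A hb⟩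
  let c' : A := ⟨c, mem_of_isIntegral_int A hc⟩
  have hab : a * b' = c' := Subtype.ext hxb
  -- Frobenius congruence on integral elements
  have hfrobA : ∀ (z : Qb) (hz : IsIntegral ℤ z),
      IsLocalRing.residue A (s • (⟨z, mem_of_isIntegral_int A hz⟩ : A)) =
        IsLocalRing.residue A (⟨z, mem_of_isIntegral_int A hz⟩ : A) ^ ℓ := by
    intro z hz
    rw [← map_pow, ← sub_eq_zero, ← map_sub, IsLocalRing.residue_eq_zero_iff,
      ← ValuationSubring.coe_mem_nonunits_iff]
    exact (hQmem _).mp (hσfrob ⟨z, hz⟩)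
  have hb0 : IsLocalRing.residue A b' ≠ 0 := by
    rw [Ne, IsLocalRing.residue_eq_zero_iff, ← ValuationSubring.coe_mem_nonunits_iff]
    exact hbA
  have h1 : IsLocalRing.residue A (s • a) * IsLocalRing.residue A b' ^ ℓ =
      IsLocalRing.residue A a ^ ℓ * IsLocalRing.residue A b' ^ ℓ := by
    have e1 : IsLocalRing.residue A (s • a) * IsLocalRing.residue A b' ^ ℓ =
        IsLocalRing.residue A (s • c') := by
      rw [← hfrobA b hb, ← map_mul, ← smul_mul', hab]
    rw [e1, hfrobA c hc, ← mul_pow, ← map_mul, hab]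
  rw [← IsLocalRing.ResidueField.residue_smul]
  exact mul_right_cancel₀ (pow_ne_zero _ hb0) h1

end Main

end Fermat.Agent.S54
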